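import Mathlib

set_option autoImplicit false

namespace Fermat.Agent.S53_helper25

open Module

section Burnside

variable {K V : Type*} [Field K] [AddCommGroup V] [Module K V]

/-- A nonzero endomorphism of a 2-dimensional space with nontrivial kernel has the form
`x ↦ f x • u`. -/
theorem exists_rankOne_of_ker_ne_bot (h2 : finrank K V = 2) (b : Module.End K V) (hb : b ≠ 0)
    (hker : LinearMap.ker b ≠ ⊥) :
    ∃ (f : Module.Dual K V) (u : V), f ≠ 0 ∧ u ≠ 0 ∧ ∀ x, b x = f x • u := by
  have : FiniteDimensional K V := FiniteDimensional.of_finrank_pos (by omega)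
  have hsum := LinearMap.finrank_range_add_finrank_ker b
  have hk : 0 < finrank K (LinearMap.ker b) := by
    rw [Nat.pos_iff_ne_zero, Ne, Submodule.finrank_eq_zero]
    exact hker
  have hr : 0 < finrank K (LinearMap.range b) := by
    rw [Nat.pos_iff_ne_zero, Ne, Submodule.finrank_eq_zero, LinearMap.range_eq_bot]
    exact hb
  have hr1 : finrank K (LinearMap.range b) = 1 := by omega
  obtain ⟨⟨u, hu⟩, hu0, huspan⟩ := finrank_eq_one_iff'.mp hr1
  have hu0' : u ≠ 0 := fun h => hu0 (Subtype.ext h)
  -- coordinate functional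
  have hex : ∀ x : V, ∃ c : K, c • u = b x := by
    intro x
    obtain ⟨c, hc⟩ := huspan ⟨b x, LinearMap.mem_range_self b x⟩
    exact ⟨c, congrArg Subtype.val hc⟩
  choose c hc using hex
  have hinj : ∀ c₁ c₂ : K, c₁ • u = c₂ • u → c₁ = c₂ := by
    intro c₁ c₂ h
    have : (c₁ - c₂) • u = 0 := by rw [sub_smul, h, sub_self]
    rcases smul_eq_zero.mp this with h' | h'
    · exact sub_eq_zero.mp h'
    · exact absurd h' hu0'
  let f : Module.Dual K V :=
    { toFun := c
      map_add' := fun x y => hinj _ _ (by rw [hc, add_smul, hc, hc, map_add])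
      map_smul' := fun a x => hinj _ _ (by
        rw [hc, RingHom.id_apply, smul_eq_mul, mul_smul, hc, map_smul]) }
  refine ⟨f, u, ?_, hu0', fun x => (hc x).symm⟩
  intro hf
  apply hb
  ext x
  have : c x = 0 := by
    have := congrArg (fun g : Module.Dual K V => g x) hf
    simpa [f] using this
  rw [← hc x, this, zero_smul, LinearMap.zero_apply]

variable [IsAlgClosed K]

/-- **Burnside's theorem in dimension 2**: a submonoid of endomorphisms of a 2-dimensional
vector space over an algebraically closed field with no nontrivial stable subspace spans the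
whole endomorphism algebra. -/
theorem burnside_finrank_two (h2 : finrank K V = 2) (S : Submonoid (Module.End K V))
    (hS : ∀ W : Submodule K V, (∀ s ∈ S, ∀ w ∈ W, s w ∈ W) → W = ⊥ ∨ W = ⊤) :
    Submodule.span K (S : Set (Module.End K V)) = ⊤ := by
  have : FiniteDimensional K V := FiniteDimensional.of_finrank_pos (by omega)
  have : Nontrivial V := nontrivial_of_finrank_pos (R := K) (by omega)
  set 𝒜 : Submodule K (Module.End K V) := Submodule.span K (S : Set (Module.End K V)) with h𝒜
  -- 𝒜 is closed under multiplication and contains 1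
  have hone : (1 : Module.End K V) ∈ 𝒜 := Submodule.subset_span S.one_mem
  have hmul : ∀ x ∈ 𝒜, ∀ y ∈ 𝒜, x * y ∈ 𝒜 := by
    intro x hx y hy
    have h := Submodule.mul_mem_mul hx hy
    rw [h𝒜, Submodule.span_mul_span] at h
    refine Submodule.span_mono ?_ h
    rintro _ ⟨a, ha, b, hb, rfl⟩
    exact S.mul_mem ha hb
  have hSle : ∀ s ∈ S, s ∈ 𝒜 := fun s hs => Submodule.subset_span hs
  -- there is a non-scalar element in S
  have hnonscalar : ∃ a ∈ S, ∀ c : K, a ≠ c • (1 : Module.End K V) := by
    by_contra hcon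
    push Not at hcon
    obtain ⟨v, hv⟩ := exists_ne (0 : V)
    have hstab : ∀ s ∈ S, ∀ w ∈ (K ∙ v), s w ∈ (K ∙ v) := by
      intro s hs w hw
      obtain ⟨c, hc⟩ := hcon s hs
      rw [hc, LinearMap.smul_apply, Module.End.one_apply]
      exact Submodule.smul_mem _ _ hw
    rcases hS (K ∙ v) hstab with h | h
    · exact hv ((Submodule.span_singleton_eq_bot).mp h)
    · have h1 := finrank_span_singleton (K := K) hv
      rw [h, finrank_top] at h1
      omega
  obtain ⟨a, haS, ha⟩ := hnonscalar
  obtain ⟨μ, hμ⟩ := Module.End.exists_eigenvalue a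
  obtain ⟨v₀, hv₀⟩ := hμ.exists_hasEigenvector
  set b : Module.End K V := a - μ • (1 : Module.End K V) with hbdef
  have hb𝒜 : b ∈ 𝒜 := Submodule.sub_mem _ (hSle a haS) (Submodule.smul_mem _ _ hone)
  have hb0 : b ≠ 0 := fun h => ha μ (sub_eq_zero.mp h)
  have hbker : LinearMap.ker b ≠ ⊥ := by
    intro h
    have hmem : v₀ ∈ LinearMap.ker b := by
      rw [LinearMap.mem_ker, hbdef, LinearMap.sub_apply, LinearMap.smul_apply,
        Module.End.one_apply, hv₀.apply_eq_smul, sub_self]
    rw [h, Submodule.mem_bot] at hmem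
    exact hv₀.2 hmem
  obtain ⟨f, u, hf0, hu0, hfu⟩ := exists_rankOne_of_ker_ne_bot h2 b hb0 hbker
  -- W1 = 𝒜 u is everything
  have hW1 : ∀ w : V, ∃ x ∈ 𝒜, x u = w := by
    let W1 : Submodule K V := 𝒜.map (LinearMap.applyₗ u)
    have hstab : ∀ s ∈ S, ∀ w ∈ W1, s w ∈ W1 := by
      rintro s hs _ ⟨x, hx, rfl⟩
      exact ⟨s * x, hmul s (hSle s hs) x hx, rfl⟩
    have hW1top : W1 = ⊤ := by
      rcases hS W1 hstab with h | h
      · exfalso
        have : u ∈ W1 := ⟨1, hone, rfl⟩
        rw [h, Submodule.mem_bot] at this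
        exact hu0 this
      · exact h
    intro w
    have : w ∈ W1 := by rw [hW1top]; exact Submodule.mem_top
    obtain ⟨x, hx, rfl⟩ := this
    exact ⟨x, hx, rfl⟩
  -- Φ = {f ∘ y : y ∈ 𝒜} is the whole dual
  have hΦ : ∀ g : Module.Dual K V, ∃ y ∈ 𝒜, f ∘ₗ y = g := by
    let Φ : Submodule K (Module.Dual K V) := 𝒜.map (LinearMap.llcomp K V V K f)
    have hΦmem : ∀ y ∈ 𝒜, f ∘ₗ y ∈ Φ := fun y hy => ⟨y, hy, rfl⟩
    have hstab : ∀ s ∈ S, ∀ w ∈ Φ.dualCoannihilator, s w ∈ Φ.dualCoannihilator := by
      intro s hs w hw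
      rw [Submodule.mem_dualCoannihilator] at hw ⊢
      rintro _ ⟨y, hy, rfl⟩
      have := hw (f ∘ₗ (y * s)) (hΦmem _ (hmul y hy s (hSle s hs)))
      simpa using this
    have hco : Φ.dualCoannihilator = ⊥ := by
      rcases hS _ hstab with h | h
      · exact h
      · exfalso
        apply hf0
        ext x
        have hx : x ∈ Φ.dualCoannihilator := by rw [h]; exact Submodule.mem_top
        rw [Submodule.mem_dualCoannihilator] at hx
        have := hx (f ∘ₗ 1) (hΦmem 1 hone)
        simpa using this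
    have hΦtop : Φ = ⊤ := by
      have := Subspace.dualCoannihilator_dualAnnihilator_eq (W := Φ)
      rw [hco, Submodule.dualAnnihilator_bot] at this
      exact this.symm
    intro g
    have : g ∈ Φ := by rw [hΦtop]; exact Submodule.mem_top
    obtain ⟨y, hy, rfl⟩ := this
    exact ⟨y, hy, rfl⟩
  -- conclude: every rank-one map is in 𝒜, and these span
  have key : ∀ t : TensorProduct K (Module.Dual K V) V, dualTensorHom K V V t ∈ 𝒜 := by
    intro t
    induction t using TensorProduct.induction_on with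
    | zero => rw [map_zero]; exact Submodule.zero_mem _
    | tmul g w =>
      obtain ⟨x, hx, rfl⟩ := hW1 w
      obtain ⟨y, hy, rfl⟩ := hΦ g
      have : dualTensorHom K V V ((f ∘ₗ y) ⊗ₜ[K] (x u)) = x * b * y := by
        ext v
        rw [dualTensorHom_apply, Module.End.mul_apply, Module.End.mul_apply, hfu, map_smul,
          LinearMap.comp_apply]
      rw [this]
      exact hmul _ (hmul x hx b hb𝒜) y hy
    | add t₁ t₂ h₁ h₂ => rw [map_add]; exact Submodule.add_mem _ h₁ h₂
  rw [eq_top_iff]
  intro T _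
  obtain ⟨t, rfl⟩ := (dualTensorHom_bijective (R := K) (M := V) (N := V)).2 T
  exact key t

end Burnside

end Fermat.Agent.S53_helper25
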